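import Fermat.Agent.JG1.Coef

/-!
# S25, block G1: the universal point of the matrix chart
-/

set_option autoImplicit false

universe u

open Polynomial LaurentPolynomial

namespace Fermat.Agent.JG1

open Fermat.Agent.JPC

variable {k : Type u} [Field k] {X : TwoChart k}

variable (X) in
/-- index set of the coordinates -/
abbrev Sg : Type u := X.A × Fin X.d × Fin X.d × ℤ

/-- the defining relations of the chart ring -/
inductive Rel (ι : Idx X) : MvPolynomial (Sg X) k → Prop
  | supp (a : X.A) (i j : Fin X.d) (n : ℤ) (h : n ∉ rg a) : Rel ι (MvPolynomial.X (a, i, j, n))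
  | alg (c : k) (i j : Fin X.d) (n : ℤ) : Rel ι (MvPolynomial.X (algebraMap k X.A c, i, j, n) -
      MvPolynomial.C (if i = j ∧ n = 0 then c else 0))
  | add (a b : X.A) (i j : Fin X.d) (n : ℤ) : Rel ι (MvPolynomial.X (a + b, i, j, n) -
      (MvPolynomial.X (a, i, j, n) + MvPolynomial.X (b, i, j, n)))
  | mul (a b : X.A) (i j : Fin X.d) (n : ℤ) : Rel ι (MvPolynomial.X (a * b, i, j, n) -
      ∑ l, ∑ m ∈ rg a, MvPolynomial.X (a, i, l, m) * MvPolynomial.X (b, l, j, n - m))
  | t (i j : Fin X.d) (n : ℤ) : Rel ι (MvPolynomial.X ((X.t : X.A), i, j, n) -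
      MvPolynomial.C (if i = j ∧ n = 1 then 1 else 0))
  | A0 (a : X.A) (ha : a ∈ X.A0) (i j : Fin X.d) (n : ℤ) (h : n < 0) :
      Rel ι (MvPolynomial.X (a, i, j, n))
  | A1 (a : X.A) (ha : a ∈ X.A1) (i j : Fin X.d) (n : ℤ) (h : 0 < n) :
      Rel ι (MvPolynomial.X (a, i, j, n))
  | row (a : X.A0) (j : Fin X.d) : Rel ι (MvPolynomial.X ((a : X.A), ⟨0, X.d_pos⟩, j, 0) -
      MvPolynomial.C (if j = ⟨0, X.d_pos⟩ then X.ev a else 0))
  | norm (i j : Fin X.d) : Rel ι (MvPolynomial.X (ι.c i, ⟨0, X.d_pos⟩, j, 0) -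
      MvPolynomial.C (if i = j then 1 else 0))

section

variable {ι : Idx X} {B : Type u} [CommRing B] [Algebra k B]

theorem alg_C (ψ : MvPolynomial (Sg X) k →ₐ[k] B) (c : k) : ψ (MvPolynomial.C c) =
    algebraMap k B c := ψ.commutes c

theorem isCoef_of_rel (ψ : MvPolynomial (Sg X) k →ₐ[k] B) (h : ∀ p, Rel ι p → ψ p = 0) :
    IsCoef ι (fun a i j n => ψ (MvPolynomial.X (a, i, j, n))) where
  supp a i j n hn := h _ (.supp a i j n hn)
  alg c i j n := by
    have := h _ (.alg c i j n)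
    rw [map_sub, sub_eq_zero, alg_C] at this
    rw [this]
    split_ifs
    · rfl
    · exact map_zero _
  add a b i j n := by
    have := h _ (.add a b i j n)
    rwa [map_sub, sub_eq_zero, map_add] at this
  mul a b i j n := by
    have := h _ (.mul a b i j n)
    rw [map_sub, sub_eq_zero] at this
    rw [this]
    simp only [map_sum, map_mul]
  t i j n := by
    have := h _ (.t i j n)
    rw [map_sub, sub_eq_zero, alg_C] at this
    rw [this]
    split_ifs
    · exact map_one _
    · exact map_zero _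
  A0 a ha i j n hn := h _ (.A0 a ha i j n hn)
  A1 a ha i j n hn := h _ (.A1 a ha i j n hn)
  row a j := by
    have := h _ (.row a j)
    rw [map_sub, sub_eq_zero, alg_C] at this
    rw [this]
    split_ifs
    · rfl
    · exact map_zero _
  norm i j := by
    have := h _ (.norm i j)
    rw [map_sub, sub_eq_zero, alg_C] at this
    rw [this]
    split_ifs
    · exact map_one _
    · exact map_zero _

theorem rel_of_isCoef (ψ : MvPolynomial (Sg X) k →ₐ[k] B)
    (hz : IsCoef ι (fun a i j n => ψ (MvPolynomial.X (a, i, j, n)))) (p) (h : Rel ι p) :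
    ψ p = 0 := by
  cases h with
  | supp a i j n h => exact hz.supp a i j n h
  | alg c i j n =>
    rw [map_sub, sub_eq_zero, alg_C]
    refine (hz.alg c i j n).trans ?_
    split_ifs
    · rfl
    · exact (map_zero _).symm
  | add a b i j n =>
    rw [map_sub, sub_eq_zero, map_add]
    exact hz.add a b i j n
  | mul a b i j n =>
    rw [map_sub, sub_eq_zero]
    simp only [map_sum, map_mul]
    exact hz.mul a b i j n
  | t i j n =>
    rw [map_sub, sub_eq_zero, alg_C]
    refine (hz.t i j n).trans ?_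
    split_ifs
    · exact (map_one _).symm
    · exact (map_zero _).symm
  | A0 a ha i j n h => exact hz.A0 a ha i j n h
  | A1 a ha i j n h => exact hz.A1 a ha i j n h
  | row a j =>
    rw [map_sub, sub_eq_zero, alg_C]
    refine (hz.row a j).trans ?_
    split_ifs
    · rfl
    · exact (map_zero _).symm
  | norm i j =>
    rw [map_sub, sub_eq_zero, alg_C]
    refine (hz.norm i j).trans ?_
    split_ifs
    · exact (map_one _).symm
    · exact (map_zero _).symm

end

/-- the ideal of relations -/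
noncomputable def relIdeal (ι : Idx X) : Ideal (MvPolynomial (Sg X) k) := Ideal.span {p | Rel ι p}

/-- the coordinate ring of the chart `ι` -/
def H (ι : Idx X) : Type u := MvPolynomial (Sg X) k ⧸ relIdeal ι

noncomputable instance (ι : Idx X) : CommRing (H ι) :=
  inferInstanceAs (CommRing (MvPolynomial (Sg X) k ⧸ relIdeal ι))
noncomputable instance (ι : Idx X) : Algebra k (H ι) :=
  inferInstanceAs (Algebra k (MvPolynomial (Sg X) k ⧸ relIdeal ι))

variable (ι : Idx X)

/-- the quotient map -/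
noncomputable def mkH : MvPolynomial (Sg X) k →ₐ[k] H ι :=
  (Ideal.Quotient.mkₐ k (relIdeal ι) : MvPolynomial (Sg X) k →ₐ[k] _ ⧸ relIdeal ι)

theorem mkH_surjective : Function.Surjective (mkH ι) := Ideal.Quotient.mkₐ_surjective k _

theorem mkH_rel (p : MvPolynomial (Sg X) k) (h : Rel ι p) : mkH ι p = 0 :=
  Ideal.Quotient.eq_zero_iff_mem.mpr (Ideal.subset_span h)

/-- the universal coordinates -/
noncomputable def Z (a : X.A) (i j : Fin X.d) (n : ℤ) : H ι := mkH ι (MvPolynomial.X (a, i, j, n))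

theorem Z_isCoef : IsCoef ι (Z ι) := isCoef_of_rel (mkH ι) (mkH_rel ι)

/-- the universal point -/
noncomputable def univ : MPt X ι (H ι) := (Z_isCoef ι).toMPt

theorem coeff_univ (a : X.A) (i j : Fin X.d) (n : ℤ) :
    ((univ ι).Φ a i j).coeff n = Z ι a i j n := (Z_isCoef ι).coeff_polHom a i j n

variable {B : Type u} [CommRing B] [Algebra k B]

variable {ι}

/-- the classifying homomorphism on polynomials -/
noncomputable def cls₀ (M : MPt X ι B) : MvPolynomial (Sg X) k →ₐ[k] B :=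
  MvPolynomial.aeval fun x : Sg X => (M.Φ x.1 x.2.1 x.2.2.1).coeff x.2.2.2

theorem cls₀_X (M : MPt X ι B) (a : X.A) (i j : Fin X.d) (n : ℤ) :
    cls₀ M (MvPolynomial.X (a, i, j, n)) = (M.Φ a i j).coeff n := MvPolynomial.aeval_X _ _

theorem cls₀_rel (M : MPt X ι B) (p : MvPolynomial (Sg X) k) (hp : p ∈ relIdeal ι) :
    cls₀ M p = 0 := by
  have hz : IsCoef ι (fun a i j n => cls₀ M (MvPolynomial.X (a, i, j, n))) := by
    simp only [cls₀_X]
    exact MPt_isCoef M
  have hle : relIdeal ι ≤ RingHom.ker (cls₀ M) := by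
    rw [relIdeal, Ideal.span_le]
    intro p hp
    exact rel_of_isCoef _ hz p hp
  exact hle hp

/-- the classifying homomorphism -/
noncomputable def cls (M : MPt X ι B) : H ι →ₐ[k] B :=
  Ideal.Quotient.liftₐ (relIdeal ι) (cls₀ M) (cls₀_rel M)

theorem cls_mkH (M : MPt X ι B) (p : MvPolynomial (Sg X) k) : cls M (mkH ι p) = cls₀ M p := rfl

theorem cls_Z (M : MPt X ι B) (a : X.A) (i j : Fin X.d) (n : ℤ) :
    cls M (Z ι a i j n) = (M.Φ a i j).coeff n :=
  (cls_mkH M _).trans (cls₀_X M a i j n)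

theorem hom_ext {f g : H ι →ₐ[k] B} (h : ∀ a i j n, f (Z ι a i j n) = g (Z ι a i j n)) : f = g := by
  have h1 : f.comp (mkH ι) = g.comp (mkH ι) := by
    apply MvPolynomial.algHom_ext
    rintro ⟨a, i, j, n⟩
    exact h a i j n
  apply AlgHom.ext
  intro x
  obtain ⟨p, rfl⟩ := mkH_surjective ι x
  exact DFunLike.congr_fun h1 p

/-- **G1**: the chart functor is represented by `H ι` -/
theorem bijective_univ : Function.Bijective (fun f : H ι →ₐ[k] B => MPtMap (univ ι) f) := by
  constructor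
  · intro f g hfg
    apply hom_ext
    intro a i j n
    have h1 := coeff_MPtMap (univ ι) f a i j n
    have h2 := coeff_MPtMap (univ ι) g a i j n
    rw [coeff_univ] at h1 h2
    rw [← h1, ← h2]
    have hfg' : MPtMap (univ ι) f = MPtMap (univ ι) g := hfg
    rw [hfg']
  · intro M
    refine ⟨cls M, MPt_ext fun a i j n => ?_⟩
    rw [coeff_MPtMap, coeff_univ, cls_Z]

theorem MPtMap_univ_cls (M : MPt X ι B) : MPtMap (univ ι) (cls M) = M :=
  MPt_ext fun a i j n => by rw [coeff_MPtMap, coeff_univ, cls_Z]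

theorem cls_MPtMap_univ (f : H ι →ₐ[k] B) : cls (MPtMap (univ ι) f) = f :=
  hom_ext fun a i j n => by rw [cls_Z, coeff_MPtMap, coeff_univ]

/-- the natural bijection -/
noncomputable def homEquiv : (H ι →ₐ[k] B) ≃ MPt X ι B where
  toFun f := MPtMap (univ ι) f
  invFun := cls
  left_inv := cls_MPtMap_univ
  right_inv := MPtMap_univ_cls

/-! ### finite type -/

/-- finitely many generators -/
def gens (ι : Idx X) : Set (H ι) :=
  {x | ∃ (l i j : Fin X.d) (n : ℤ), n ∈ rg (X.b0 l) ∧ x = Z ι (X.b0 l) i j n}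

theorem gens_finite : (gens ι).Finite := by
  have h : gens ι ⊆ ⋃ l : Fin X.d, ⋃ i : Fin X.d, ⋃ j : Fin X.d,
      (fun n => Z ι (X.b0 l) i j n) '' (rg (X.b0 l) : Set ℤ) := by
    rintro x ⟨l, i, j, n, hn, rfl⟩
    simp only [Set.mem_iUnion]
    exact ⟨l, i, j, n, hn, rfl⟩
  refine Set.Finite.subset ?_ h
  exact Set.finite_iUnion fun l => Set.finite_iUnion fun i => Set.finite_iUnion fun j =>
    (Finset.finite_toSet _).image _

theorem Z_b0_mem (l i j : Fin X.d) (n : ℤ) : Z ι (X.b0 l) i j n ∈ Algebra.adjoin k (gens ι) := by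
  by_cases hn : n ∈ rg (X.b0 l)
  · exact Algebra.subset_adjoin ⟨l, i, j, n, hn, rfl⟩
  · rw [(Z_isCoef ι).supp _ i j n hn]
    exact zero_mem _

theorem Z_smul (c : k) (a : X.A) (i j : Fin X.d) (n : ℤ) : Z ι (c • a) i j n = c • Z ι a i j n := by
  rw [← coeff_univ, ← coeff_univ, map_smul]
  rfl

theorem Z_sum {τ : Type*} (s : Finset τ) (f : τ → X.A) (i j : Fin X.d) (n : ℤ) :
    Z ι (∑ x ∈ s, f x) i j n = ∑ x ∈ s, Z ι (f x) i j n := by
  simp only [← coeff_univ]
  rw [map_sum, Matrix.sum_apply, AddMonoidAlgebra.coeff_sum, Finsupp.finsetSum_apply]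

theorem Z_t_pow_mul (m : ℕ) (a : X.A) (i j : Fin X.d) (n : ℤ) :
    Z ι ((X.t : X.A) ^ m * a) i j n = Z ι a i j (n - m) := by
  rw [← coeff_univ, ← coeff_univ, MPt_t_pow_mul]

theorem Z_A0_mem (a : X.A) (ha : a ∈ X.A0) (i j : Fin X.d) (n : ℤ) :
    Z ι a i j n ∈ Algebra.adjoin k (gens ι) := by
  obtain ⟨f, hf, -⟩ := X.b0_basis a ha
  rw [hf, Z_sum]
  refine sum_mem fun l _ => ?_
  have h : aeval (X.t : X.A) (f l) * X.b0 l =
      ∑ m ∈ (f l).support, (f l).coeff m • ((X.t : X.A) ^ m * X.b0 l) := by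
    rw [Polynomial.aeval_def, Polynomial.eval₂_eq_sum, Polynomial.sum_def, Finset.sum_mul]
    refine Finset.sum_congr rfl fun m _ => ?_
    rw [Algebra.smul_def, mul_assoc]
  rw [h, Z_sum]
  refine sum_mem fun m _ => ?_
  rw [Z_smul, Z_t_pow_mul]
  exact Subalgebra.smul_mem _ (Z_b0_mem _ _ _ _) _

theorem Z_mem (a : X.A) (i j : Fin X.d) (n : ℤ) : Z ι a i j n ∈ Algebra.adjoin k (gens ι) := by
  obtain ⟨p, hp⟩ := X.ex0 a
  have h := Z_A0_mem (ι := ι) _ hp i j (n + p)
  rwa [Z_t_pow_mul, add_sub_cancel_right] at h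

theorem adjoin_gens : Algebra.adjoin k (gens ι) = ⊤ := by
  rw [eq_top_iff]
  rintro x -
  obtain ⟨p, rfl⟩ := mkH_surjective ι x
  induction p using MvPolynomial.induction_on with
  | C c => 
    have : mkH ι (MvPolynomial.C c) = algebraMap k (H ι) c := alg_C (mkH ι) c
    rw [this]
    exact Subalgebra.algebraMap_mem _ _
  | add p q hp hq => rw [map_add]; exact add_mem hp hq
  | mul_X p x hp =>
    rw [map_mul]
    obtain ⟨a, i, j, n⟩ := x
    exact mul_mem hp (Z_mem a i j n)

instance finiteType : Algebra.FiniteType k (H ι) :=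
  ⟨⟨gens_finite.toFinset, by rw [Set.Finite.coe_toFinset, adjoin_gens]⟩⟩

end Fermat.Agent.JG1
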