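import Fermat.Agent.JPC.Defs

/-!
# S25, block G1: points of the matrix chart in coordinates
-/

set_option autoImplicit false

universe u

open Polynomial LaurentPolynomial

namespace Fermat.Agent.JG1

open Fermat.Agent.JPC

variable {k : Type u} [Field k] {X : TwoChart k}

/-- lower bound of the exponents -/
noncomputable def lo (a : X.A) : ℤ := -((X.ex0 a).choose : ℤ)

/-- upper bound of the exponents -/
noncomputable def hi (a : X.A) : ℤ := ((X.ex1 a).choose : ℤ)

/-- range of the exponents of `Φ a` -/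
noncomputable def rg (a : X.A) : Finset ℤ := Finset.Icc (lo a) (hi a)

theorem coeff_single_mul_int {S : Type u} [CommRing S] (g : S[T;T⁻¹]) (m : ℤ) (r : S) (n : ℤ) :
    ((AddMonoidAlgebra.single m r : S[T;T⁻¹]) * g).coeff n = r * g.coeff (n - m) :=
  AddMonoidAlgebra.coeff_single_mul_eq_mul_coeff (n - m) fun m' _ => by
    constructor
    · intro h; omega
    · intro h; omega

theorem eq_sum_single {S : Type u} [CommRing S] (f : S[T;T⁻¹]) (s : Finset ℤ)
    (hs : ∀ n, n ∉ s → f.coeff n = 0) :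
    f = ∑ m ∈ s, (AddMonoidAlgebra.single m (f.coeff m) : S[T;T⁻¹]) := by
  refine LaurentPolynomial.ext fun n => ?_
  rw [AddMonoidAlgebra.coeff_sum, Finsupp.finsetSum_apply]
  simp only [AddMonoidAlgebra.coeff_single, Finsupp.single_apply]
  by_cases hn : n ∈ s
  · rw [Finset.sum_eq_single n (fun b _ hb => if_neg hb) (fun h => absurd hn h), if_pos rfl]
  · rw [hs n hn, Finset.sum_eq_zero]
    intro m hm
    rw [if_neg]
    rintro rfl
    exact hn hm

theorem coeff_mul_of_support {S : Type u} [CommRing S] (f g : S[T;T⁻¹]) (s : Finset ℤ)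
    (hs : ∀ n, n ∉ s → f.coeff n = 0) (n : ℤ) :
    (f * g).coeff n = ∑ m ∈ s, f.coeff m * g.coeff (n - m) := by
  conv_lhs => rw [eq_sum_single f s hs]
  rw [Finset.sum_mul, AddMonoidAlgebra.coeff_sum, Finsupp.finsetSum_apply]
  exact Finset.sum_congr rfl fun m _ => coeff_single_mul_int g m _ n

/-- points of the chart in coordinates -/
structure IsCoef (ι : Idx X) {S : Type u} [CommRing S] [Algebra k S]
    (z : X.A → Fin X.d → Fin X.d → ℤ → S) : Prop where
  supp : ∀ a i j n, n ∉ rg a → z a i j n = 0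
  alg : ∀ (c : k) i j n, z (algebraMap k X.A c) i j n =
    if i = j ∧ n = 0 then algebraMap k S c else 0
  add : ∀ a b i j n, z (a + b) i j n = z a i j n + z b i j n
  mul : ∀ a b i j n, z (a * b) i j n = ∑ l, ∑ m ∈ rg a, z a i l m * z b l j (n - m)
  t : ∀ i j n, z (X.t : X.A) i j n = if i = j ∧ n = 1 then 1 else 0
  A0 : ∀ a ∈ X.A0, ∀ i j n, n < 0 → z a i j n = 0
  A1 : ∀ a ∈ X.A1, ∀ i j n, 0 < n → z a i j n = 0
  row : ∀ (a : X.A0) (j : Fin X.d), z (a : X.A) ⟨0, X.d_pos⟩ j 0 =
    if j = ⟨0, X.d_pos⟩ then algebraMap k S (X.ev a) else 0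
  norm : ∀ i j : Fin X.d, z (ι.c i) ⟨0, X.d_pos⟩ j 0 = if i = j then 1 else 0

variable {ι : Idx X} {B : Type u} [CommRing B] [Algebra k B]

theorem MPt_ext {M M' : MPt X ι B} (h : ∀ a i j n, (M.Φ a i j).coeff n = (M'.Φ a i j).coeff n) :
    M = M' := by
  have : M.Φ = M'.Φ := by
    apply AlgHom.ext
    intro a
    exact Matrix.ext fun i j => LaurentPolynomial.ext (h a i j)
  cases M
  cases M'
  cases this
  rfl

theorem MPt_t_pow (M : MPt X ι B) (n : ℕ) : M.Φ ((X.t : X.A) ^ n) =
    Matrix.scalar (Fin X.d) (LaurentPolynomial.T (n : ℤ)) := by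
  rw [map_pow, M.Φ_t, ← map_pow, LaurentPolynomial.T_pow, mul_one]

theorem MPt_t_pow_mul (M : MPt X ι B) (n : ℕ) (a : X.A) (i j : Fin X.d) (m : ℤ) :
    (M.Φ ((X.t : X.A) ^ n * a) i j).coeff m = (M.Φ a i j).coeff (m - n) := by
  rw [map_mul, MPt_t_pow, Matrix.scalar_apply, Matrix.diagonal_mul]
  exact (coeff_single_mul_int _ (n : ℤ) 1 m).trans (one_mul _)

theorem MPt_tinv_pow_mul (M : MPt X ι B) (n : ℕ) (a : X.A) (i j : Fin X.d) (m : ℤ) :
    (M.Φ (((X.t⁻¹ : X.Aˣ) : X.A) ^ n * a) i j).coeff m = (M.Φ a i j).coeff (m + n) := by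
  have h := MPt_t_pow_mul M n (((X.t⁻¹ : X.Aˣ) : X.A) ^ n * a) i j (m + n)
  rw [add_sub_cancel_right] at h
  rw [← h, ← mul_assoc, ← mul_pow, Units.mul_inv, one_pow, one_mul]

theorem MPt_supp (M : MPt X ι B) (a : X.A) (i j : Fin X.d) (n : ℤ) (hn : n ∉ rg a) :
    (M.Φ a i j).coeff n = 0 := by
  rw [rg, Finset.mem_Icc, not_and_or, not_le, not_le] at hn
  rcases hn with hn | hn
  · have h := M.Φ0 _ (X.ex0 a).choose_spec i j (n + (X.ex0 a).choose) (by rw [lo] at hn; omega)
    rw [MPt_t_pow_mul, add_sub_cancel_right] at h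
    exact h
  · have h := M.Φ1 _ (X.ex1 a).choose_spec i j (n - (X.ex1 a).choose) (by rw [hi] at hn; omega)
    rw [MPt_tinv_pow_mul, sub_add_cancel] at h
    exact h

theorem MPt_isCoef (M : MPt X ι B) : IsCoef ι (fun a i j n => (M.Φ a i j).coeff n) where
  supp := MPt_supp M
  alg c i j n := by
    rw [AlgHom.commutes, Matrix.algebraMap_matrix_apply]
    by_cases hij : i = j
    · subst hij
      simp only [if_true, true_and]
      rw [LaurentPolynomial.algebraMap_apply, LaurentPolynomial.C_apply]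
    · rw [if_neg hij, if_neg (fun h => hij h.1)]
      rfl
  add a b i j n := by rw [map_add]; rfl
  mul a b i j n := by
    rw [map_mul, Matrix.mul_apply, AddMonoidAlgebra.coeff_sum, Finsupp.finsetSum_apply]
    exact Finset.sum_congr rfl fun l _ => coeff_mul_of_support _ _ (rg a) (MPt_supp M a i l) n
  t i j n := by
    rw [M.Φ_t, Matrix.scalar_apply]
    by_cases hij : i = j
    · subst hij
      rw [Matrix.diagonal_apply_eq, LaurentPolynomial.T_apply]
      simp only [true_and, eq_comm]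
    · rw [Matrix.diagonal_apply_ne _ hij, if_neg (fun h => hij h.1)]
      rfl
  A0 := fun a ha i j n hn => M.Φ0 a ha i j n hn
  A1 := fun a ha i j n hn => M.Φ1 a ha i j n hn
  row := M.row
  norm := M.norm

namespace IsCoef

variable {z : X.A → Fin X.d → Fin X.d → ℤ → B} (hz : IsCoef ι z)

/-- the Laurent polynomial with given coefficients -/
noncomputable def pol (z : X.A → Fin X.d → Fin X.d → ℤ → B) (a : X.A) (i j : Fin X.d) :
    LaurentPolynomial B :=
  ∑ n ∈ rg a, (AddMonoidAlgebra.single n (z a i j n) : B[T;T⁻¹])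

include hz in
theorem coeff_pol (a : X.A) (i j : Fin X.d) (n : ℤ) : (pol z a i j).coeff n = z a i j n := by
  rw [pol, AddMonoidAlgebra.coeff_sum, Finsupp.finsetSum_apply]
  simp only [AddMonoidAlgebra.coeff_single, Finsupp.single_apply]
  by_cases hn : n ∈ rg a
  · rw [Finset.sum_eq_single n (fun b _ hb => if_neg hb) (fun h => absurd hn h), if_pos rfl]
  · rw [hz.supp a i j n hn, Finset.sum_eq_zero]
    intro m hm
    rw [if_neg]
    rintro rfl
    exact hn hm

theorem polMat_alg (hz : IsCoef ι z) (c : k) :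
    (Matrix.of fun i j => pol z (algebraMap k X.A c) i j) =
      algebraMap k (Matrix (Fin X.d) (Fin X.d) (LaurentPolynomial B)) c := by
  refine Matrix.ext fun i j => ?_
  refine LaurentPolynomial.ext fun n => ?_
  rw [Matrix.of_apply, hz.coeff_pol, hz.alg, Matrix.algebraMap_matrix_apply]
  by_cases hij : i = j
  · subst hij
    simp only [if_true, true_and]
    rw [LaurentPolynomial.algebraMap_apply, LaurentPolynomial.C_apply]
  · rw [if_neg hij, if_neg (fun h => hij h.1)]
    rfl

/-- the matrix valued homomorphism -/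
noncomputable def polHom (hz : IsCoef ι z) :
    X.A →ₐ[k] Matrix (Fin X.d) (Fin X.d) (LaurentPolynomial B) where
  toFun a := Matrix.of fun i j => pol z a i j
  map_one' := by
    have h := polMat_alg hz 1
    rwa [map_one, map_one] at h
  map_mul' a b := by
    refine Matrix.ext fun i j => ?_
    refine LaurentPolynomial.ext fun n => ?_
    rw [Matrix.of_apply, hz.coeff_pol, hz.mul, Matrix.mul_apply, AddMonoidAlgebra.coeff_sum,
      Finsupp.finsetSum_apply]
    refine Finset.sum_congr rfl fun l _ => ?_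
    rw [Matrix.of_apply, Matrix.of_apply, coeff_mul_of_support _ _ (rg a)
      (fun n hn => by rw [hz.coeff_pol, hz.supp a i l n hn])]
    refine Finset.sum_congr rfl fun m _ => ?_
    rw [hz.coeff_pol, hz.coeff_pol]
  map_zero' := by
    have h := polMat_alg hz 0
    rwa [map_zero, map_zero] at h
  map_add' a b := by
    refine Matrix.ext fun i j => ?_
    refine LaurentPolynomial.ext fun n => ?_
    rw [Matrix.of_apply, hz.coeff_pol, hz.add, Matrix.add_apply, Matrix.of_apply, Matrix.of_apply,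
      AddMonoidAlgebra.coeff_add, Finsupp.add_apply, hz.coeff_pol, hz.coeff_pol]
  commutes' := polMat_alg hz

theorem coeff_polHom (hz : IsCoef ι z) (a : X.A) (i j : Fin X.d) (n : ℤ) :
    (hz.polHom a i j).coeff n = z a i j n := hz.coeff_pol a i j n

/-- the point of the chart with given coordinates -/
noncomputable def toMPt (hz : IsCoef ι z) : MPt X ι B where
  Φ := hz.polHom
  Φ_t := by
    refine Matrix.ext fun i j => ?_
    refine LaurentPolynomial.ext fun n => ?_
    rw [hz.coeff_polHom, hz.t, Matrix.scalar_apply]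
    by_cases hij : i = j
    · subst hij
      rw [Matrix.diagonal_apply_eq, LaurentPolynomial.T_apply]
      simp only [true_and, eq_comm]
    · rw [Matrix.diagonal_apply_ne _ hij, if_neg (fun h => hij h.1)]
      rfl
  Φ0 a ha i j n hn := by rw [hz.coeff_polHom, hz.A0 a ha i j n hn]
  Φ1 a ha i j n hn := by rw [hz.coeff_polHom, hz.A1 a ha i j n hn]
  row a j := by rw [hz.coeff_polHom, hz.row]
  norm i j := by rw [hz.coeff_polHom, hz.norm]

end IsCoef

/-! ### functoriality -/

variable {B' : Type u} [CommRing B'] [Algebra k B']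

/-- base change of a point of the chart -/
noncomputable def MPtMap (M : MPt X ι B) (f : B →ₐ[k] B') : MPt X ι B' where
  Φ := ((AddMonoidAlgebra.mapAlgHom ℤ f : B[T;T⁻¹] →ₐ[k] B'[T;T⁻¹]).mapMatrix).comp M.Φ
  Φ_t := by
    rw [AlgHom.comp_apply, M.Φ_t, AlgHom.mapMatrix_apply]
    refine Matrix.ext fun i j => ?_
    rw [Matrix.map_apply, Matrix.scalar_apply, Matrix.scalar_apply]
    by_cases hij : i = j
    · subst hij
      rw [Matrix.diagonal_apply_eq, Matrix.diagonal_apply_eq, LaurentPolynomial.T,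
        AddMonoidAlgebra.mapAlgHom_single, map_one]
      rfl
    · rw [Matrix.diagonal_apply_ne _ hij, Matrix.diagonal_apply_ne _ hij, map_zero]
  Φ0 a ha i j n hn := by
    rw [AlgHom.comp_apply, AlgHom.mapMatrix_apply, Matrix.map_apply,
      AddMonoidAlgebra.coeff_mapAlgHom, M.Φ0 a ha i j n hn, map_zero]
  Φ1 a ha i j n hn := by
    rw [AlgHom.comp_apply, AlgHom.mapMatrix_apply, Matrix.map_apply,
      AddMonoidAlgebra.coeff_mapAlgHom, M.Φ1 a ha i j n hn, map_zero]
  row a j := by
    rw [AlgHom.comp_apply, AlgHom.mapMatrix_apply, Matrix.map_apply,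
      AddMonoidAlgebra.coeff_mapAlgHom, M.row]
    split_ifs
    · exact f.commutes _
    · exact map_zero f
  norm i j := by
    rw [AlgHom.comp_apply, AlgHom.mapMatrix_apply, Matrix.map_apply,
      AddMonoidAlgebra.coeff_mapAlgHom, M.norm]
    split_ifs
    · exact map_one f
    · exact map_zero f

theorem coeff_MPtMap (M : MPt X ι B) (f : B →ₐ[k] B') (a : X.A) (i j : Fin X.d) (n : ℤ) :
    ((MPtMap M f).Φ a i j).coeff n = f ((M.Φ a i j).coeff n) := by
  show ((((AddMonoidAlgebra.mapAlgHom ℤ f : B[T;T⁻¹] →ₐ[k] B'[T;T⁻¹]).mapMatrix).comp M.Φ) a i j).coeff n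
    = _
  rw [AlgHom.comp_apply, AlgHom.mapMatrix_apply, Matrix.map_apply,
      AddMonoidAlgebra.coeff_mapAlgHom]

theorem MPtMap_id (M : MPt X ι B) : MPtMap M (AlgHom.id k B) = M :=
  MPt_ext fun a i j n => by rw [coeff_MPtMap]; rfl

theorem MPtMap_comp {B'' : Type u} [CommRing B''] [Algebra k B''] (M : MPt X ι B)
    (f : B →ₐ[k] B') (g : B' →ₐ[k] B'') : MPtMap M (g.comp f) = MPtMap (MPtMap M f) g :=
  MPt_ext fun a i j n => by rw [coeff_MPtMap, coeff_MPtMap, coeff_MPtMap]; rfl

end Fermat.Agent.JG1
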